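import Mathlib

/-!
# Kummer's lemma by computation, part (D): the Dirichlet / linear algebra core

Let `E` be a commutative group generated (as a group) by a finite family `w : ι → E`, let `V` be a
vector space over `ZMod p` and `L : Additive E →+ V` an additive map.  If there is a family
`g : κ → E` with `#ι ≤ #κ` whose images under `L` are linearly independent, then every `u` with
`L u = 0` is a `p`-th power.

For `E = (𝓞 K)ˣ`, `K` the `p`-th cyclotomic field, Dirichlet's unit theorem gives such a
generating family with `#ι = (p - 1) / 2`.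
-/

namespace Fermat.Agent.FLTReg.KLC

open Module

section Pure

variable {p : ℕ} [Fact p.Prime] {E : Type*} [CommGroup E] {V : Type*} [AddCommGroup V]
  [Module (ZMod p) V]

/-- `L` of a product of integer powers, as a `ZMod p`-linear combination. -/
theorem map_prod_zpow {ι : Type*} [Fintype ι] (L : Additive E →+ V) (w : ι → E) (e : ι → ℤ) :
    L (Additive.ofMul (∏ i, w i ^ e i)) = ∑ i, ((e i : ℤ) : ZMod p) • L (Additive.ofMul (w i)) := by
  rw [ofMul_prod, map_sum]
  refine Finset.sum_congr rfl fun i _ => ?_
  rw [ofMul_zpow, map_zsmul, Int.cast_smul_eq_zsmul]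

/-- The abstract core: generators `w`, independent images of `g`, `#ι ≤ #κ`. -/
theorem exists_pow_eq_of_gens {ι κ : Type*} [Fintype ι] [Fintype κ]
    (hcard : Fintype.card ι ≤ Fintype.card κ) (w : ι → E)
    (hgen : ∀ u : E, ∃ e : ι → ℤ, u = ∏ i, w i ^ e i)
    (L : Additive E →+ V) (g : κ → E)
    (hg : LinearIndependent (ZMod p) fun j => L (Additive.ofMul (g j)))
    (u : E) (hu : L (Additive.ofMul u) = 0) : ∃ v : E, u = v ^ p := by
  classical
  set b : ι → V := fun i => L (Additive.ofMul (w i)) with hb
  set W : Submodule (ZMod p) V := Submodule.span (ZMod p) (Set.range b) with hW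
  -- every `L x` lies in `W`
  have hmem : ∀ x : E, L (Additive.ofMul x) ∈ W := by
    intro x
    obtain ⟨e, rfl⟩ := hgen x
    rw [map_prod_zpow (p := p)]
    exact Submodule.sum_mem _ fun i _ =>
      Submodule.smul_mem _ _ (Submodule.subset_span (Set.mem_range_self i))
  -- the family `g` restricted to `W`
  have hg' : LinearIndependent (ZMod p) fun j => (⟨L (Additive.ofMul (g j)), hmem (g j)⟩ : W) := by
    apply LinearIndependent.of_comp W.subtype
    exact hg
  have : Module.Finite (ZMod p) W := FiniteDimensional.span_of_finite _ (Set.finite_range b)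
  have h1 : Fintype.card κ ≤ finrank (ZMod p) W := hg'.fintype_card_le_finrank
  have h2 : (Set.range b).finrank (ZMod p) ≤ Fintype.card ι := finrank_range_le_card b
  have h3 : Fintype.card ι = (Set.range b).finrank (ZMod p) := by
    have : (Set.range b).finrank (ZMod p) = finrank (ZMod p) W := rfl
    omega
  have hbLI : LinearIndependent (ZMod p) b := linearIndependent_iff_card_eq_finrank_span.mpr h3
  obtain ⟨e, rfl⟩ := hgen u
  rw [map_prod_zpow (p := p)] at hu
  have hz := Fintype.linearIndependent_iff.mp hbLI (fun i => ((e i : ℤ) : ZMod p)) hu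
  have hdvd : ∀ i, (p : ℤ) ∣ e i := fun i => (ZMod.intCast_zmod_eq_zero_iff_dvd (e i) p).mp (hz i)
  choose f hf using hdvd
  refine ⟨∏ i, w i ^ f i, ?_⟩
  rw [← Finset.prod_pow]
  refine Finset.prod_congr rfl fun i _ => ?_
  rw [hf i, mul_comm, zpow_mul, zpow_natCast]

end Pure

section NumberField

open NumberField NumberField.Units NumberField.InfinitePlace

variable {p : ℕ} [Fact p.Prime] {K : Type*} [Field K] [NumberField K]

/-- Generators of the unit group: a generator of the torsion and a fundamental system. -/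
theorem exists_gens_units :
    ∃ w : Option (Fin (rank K)) → (𝓞 K)ˣ, ∀ u : (𝓞 K)ˣ,
      ∃ e : Option (Fin (rank K)) → ℤ, u = ∏ i, w i ^ e i := by
  obtain ⟨t0, ht0⟩ := IsCyclic.exists_generator (α := torsion K)
  refine ⟨fun i => Option.elim i (t0 : (𝓞 K)ˣ) (fundSystem K), fun u => ?_⟩
  obtain ⟨⟨t, e⟩, hte, -⟩ := exist_unique_eq_mul_prod K u
  obtain ⟨k, hk⟩ := Subgroup.mem_zpowers_iff.mp (ht0 t)
  refine ⟨fun i => Option.elim i k e, ?_⟩
  rw [Fintype.prod_option]
  simp only [Option.elim_none, Option.elim_some]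
  rw [hte]
  congr 1
  rw [← hk]
  simp

/-- The unit rank of the `p`-th cyclotomic field (`p` an odd prime) is `(p - 1) / 2 - 1`. -/
theorem rank_add_one_eq (hp2 : p ≠ 2) [IsCyclotomicExtension {p} ℚ K] :
    rank K + 1 = (p - 1) / 2 := by
  have hp : p.Prime := Fact.out
  have h2 : 2 < p := lt_of_le_of_ne hp.two_le (Ne.symm hp2)
  have hr : nrRealPlaces K = 0 := IsCyclotomicExtension.Rat.nrRealPlaces_eq_zero (n := p) K h2
  have hc : nrComplexPlaces K = p.totient / 2 :=
    IsCyclotomicExtension.Rat.nrComplexPlaces_eq_totient_div_two p K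
  rw [Nat.totient_prime hp] at hc
  have hcard : Fintype.card (InfinitePlace K) = (p - 1) / 2 := by
    rw [card_eq_nrRealPlaces_add_nrComplexPlaces, hr, hc, zero_add]
  have hpos : 0 < (p - 1) / 2 := by omega
  rw [rank, hcard]
  omega

/-- **Core of Kummer's lemma**: if `(p - 1) / 2` units of the `p`-th cyclotomic field have
`ZMod p`-linearly independent images under an additive map `L` on the unit group, then every unit
killed by `L` is a `p`-th power. -/
theorem exists_pow_eq_of_indep (hp2 : p ≠ 2) [IsCyclotomicExtension {p} ℚ K]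
    {V : Type*} [AddCommGroup V] [Module (ZMod p) V] (L : Additive (𝓞 K)ˣ →+ V)
    {κ : Type*} [Fintype κ] (hκ : (p - 1) / 2 ≤ Fintype.card κ) (g : κ → (𝓞 K)ˣ)
    (hg : LinearIndependent (ZMod p) fun j => L (Additive.ofMul (g j)))
    (u : (𝓞 K)ˣ) (hu : L (Additive.ofMul u) = 0) : ∃ v : (𝓞 K)ˣ, u = v ^ p := by
  obtain ⟨w, hw⟩ := exists_gens_units (K := K)
  refine exists_pow_eq_of_gens (p := p) ?_ w hw L g hg u hu
  rw [Fintype.card_option, Fintype.card_fin, rank_add_one_eq (p := p) (K := K) hp2]
  exact hκ

end NumberField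

end Fermat.Agent.FLTReg.KLC
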