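import Mathlib
import Fermat.Agent.FLTReg.KLC.UnitsGen

/-!
# Kummer's lemma by computation, part (H): the logarithmic derivative on units mod `p`

For the `p`-th cyclotomic field `K` and a commutative `ZMod p`-algebra `R` with an element `x` such
that `x ^ (p - 2) = 0`, there is a ring homomorphism `ψ : 𝓞 K →+* R[ε]` with
`ψ ζ = (1 + x) + ε`.  Writing `ψ u = a + b ε`, the map `u ↦ b / a` is additive on units
(a logarithmic derivative) and kills every unit congruent to a rational integer mod `p`.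
-/

namespace Fermat.Agent.FLTReg.KLC

open NumberField Polynomial TrivSqZeroExt DualNumber

section Hom

variable {p : ℕ} [Fact p.Prime]

theorem aeval_cyclotomic_eq {T : Type*} [CommRing T] [Algebra (ZMod p) T] (y : T) :
    aeval y (cyclotomic p ℤ) = (y - 1) ^ (p - 1) := by
  have h1 : cyclotomic p (ZMod p) = (X - 1) ^ (p - 1) := by
    have := cyclotomic_mul_prime_eq_pow_of_not_dvd (ZMod p) (p := p) (n := 1)
      (Nat.Prime.not_dvd_one Fact.out)
    rwa [one_mul, cyclotomic_one] at this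
  have h2 : aeval y (cyclotomic p ℤ) = aeval y (cyclotomic p (ZMod p)) := by
    rw [← map_cyclotomic_int p (ZMod p)]
    exact (aeval_map_algebraMap (ZMod p) y (cyclotomic p ℤ)).symm
  rw [h2, h1]
  simp

variable {K : Type*} [Field K] [NumberField K] [IsCyclotomicExtension {p} ℚ K] {ζ : K}
  (hζ : IsPrimitiveRoot ζ p)

/-- A ring hom out of `𝓞 K` sending `ζ` to any `y` with `(y - 1) ^ (p - 1) = 0` in a
`ZMod p`-algebra. -/
theorem exists_ringHom_map_zeta {T : Type*} [CommRing T] [Algebra (ZMod p) T] (y : T)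
    (hy : (y - 1) ^ (p - 1) = 0) : ∃ ψ : 𝓞 K →+* T, ψ hζ.toInteger = y := by
  have hmin : minpoly ℤ hζ.integralPowerBasis.gen = cyclotomic p ℤ := by
    rw [hζ.integralPowerBasis_gen, ← NumberField.RingOfIntegers.minpoly_coe]
    change minpoly ℤ ζ = _
    exact (cyclotomic_eq_minpoly hζ (NeZero.pos p)).symm
  have hy' : aeval y (minpoly ℤ hζ.integralPowerBasis.gen) = 0 := by
    rw [hmin, aeval_cyclotomic_eq, hy]
  refine ⟨(hζ.integralPowerBasis.lift y hy').toRingHom, ?_⟩
  have := hζ.integralPowerBasis.lift_gen y hy'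
  rwa [hζ.integralPowerBasis_gen] at this

end Hom

section Dlog

variable (R : Type*) [CommRing R]

theorem fst_mul_fst_inv (t : (DualNumber R)ˣ) :
    fst (t : DualNumber R) * fst ((t⁻¹ : (DualNumber R)ˣ) : DualNumber R) = 1 := by
  rw [← fst_mul, ← Units.val_mul, mul_inv_cancel, Units.val_one, fst_one]

/-- The logarithmic derivative `a + b ε ↦ b / a` on units of the dual numbers. -/
noncomputable def dlogDual : Additive (DualNumber R)ˣ →+ R :=
  AddMonoidHom.mk'
    (fun t => snd ((Additive.toMul t : (DualNumber R)ˣ) : DualNumber R) *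
      fst (((Additive.toMul t)⁻¹ : (DualNumber R)ˣ) : DualNumber R))
    (by
      intro s t
      have h1 := fst_mul_fst_inv R (Additive.toMul s)
      have h2 := fst_mul_fst_inv R (Additive.toMul t)
      simp only [toMul_add, Units.val_mul, mul_inv_rev, DualNumber.snd_mul, TrivSqZeroExt.fst_mul]
      linear_combination
        (snd ((Additive.toMul t : (DualNumber R)ˣ) : DualNumber R) *
          fst (((Additive.toMul t)⁻¹ : (DualNumber R)ˣ) : DualNumber R)) * h1 +
        (snd ((Additive.toMul s : (DualNumber R)ˣ) : DualNumber R) *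
          fst (((Additive.toMul s)⁻¹ : (DualNumber R)ˣ) : DualNumber R)) * h2)

theorem dlogDual_apply (t : (DualNumber R)ˣ) :
    dlogDual R (Additive.ofMul t) =
      snd (t : DualNumber R) * fst ((t⁻¹ : (DualNumber R)ˣ) : DualNumber R) := rfl

end Dlog

section Criterion

variable {p : ℕ} [Fact p.Prime] {K : Type*} [Field K] [NumberField K]
  [IsCyclotomicExtension {p} ℚ K] {ζ : K} (hζ : IsPrimitiveRoot ζ p)

theorem natCast_self_eq_zero (T : Type*) [CommRing T] [Algebra (ZMod p) T] : (p : T) = 0 := by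
  rw [← map_natCast (algebraMap (ZMod p) T) p, ZMod.natCast_self, map_zero]

theorem inl_add_eps_pow_eq_zero (hp2 : p ≠ 2) (R : Type*) [CommRing R] [Algebra (ZMod p) R]
    (x : R) (hx : x ^ (p - 2) = 0) : ((inl (1 + x) + ε : DualNumber R) - 1) ^ (p - 1) = 0 := by
  have hp : p.Prime := Fact.out
  have h2 : 2 < p := lt_of_le_of_ne hp.two_le (Ne.symm hp2)
  have h1 : (inl (1 + x) + ε : DualNumber R) - 1 = inl x + ε := by
    rw [inl_add, inl_one]; ring
  rw [h1]
  ext
  · rw [TrivSqZeroExt.fst_pow, fst_add, fst_inl, fst_eps, add_zero, fst_zero,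
      show p - 1 = (p - 2) + 1 by omega, pow_succ, hx, zero_mul]
  · rw [TrivSqZeroExt.snd_pow, fst_add, fst_inl, fst_eps, add_zero, snd_zero,
      show (p - 1).pred = p - 2 by rw [Nat.pred_eq_sub_one]; omega, hx, zero_smul, smul_zero]

/-- **Criterion for Kummer's lemma.**  `R` a `ZMod p`-algebra, `x ^ (p - 2) = 0`; `g j` units,
`Λ j ∈ R` linearly independent over `ZMod p` such that for the ring hom `ψ : 𝓞 K →+* R[ε]` with
`ψ ζ = (1 + x) + ε` we have `snd (ψ (g j)) = Λ j * fst (ψ (g j))`.  Then every unit congruent to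
an integer mod `p` is a `p`-th power. -/
theorem kummer_of_dual_certificates (hp2 : p ≠ 2) (R : Type*) [CommRing R] [Algebra (ZMod p) R]
    (x : R) (hx : x ^ (p - 2) = 0) {κ : Type*} [Fintype κ] (hκ : (p - 1) / 2 ≤ Fintype.card κ)
    (g : κ → (𝓞 K)ˣ) (Λ : κ → R) (hΛ : LinearIndependent (ZMod p) Λ)
    (hcert : ∀ ψ : 𝓞 K →+* DualNumber R, ψ hζ.toInteger = inl (1 + x) + ε →
      ∀ j, snd (ψ (g j)) = Λ j * fst (ψ (g j)))
    (u : (𝓞 K)ˣ) (hcong : ∃ n : ℤ, (p : 𝓞 K) ∣ (u : 𝓞 K) - n) : ∃ v : (𝓞 K)ˣ, u = v ^ p := by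
  obtain ⟨ψ, hψ⟩ := exists_ringHom_map_zeta hζ (inl (1 + x) + ε : DualNumber R)
    (inl_add_eps_pow_eq_zero hp2 R x hx)
  set L : Additive (𝓞 K)ˣ →+ R := (dlogDual R).comp (MonoidHom.toAdditive (Units.map ψ.toMonoidHom))
    with hL
  have hLapp : ∀ w : (𝓞 K)ˣ, L (Additive.ofMul w) =
      snd (ψ (w : 𝓞 K)) * fst (ψ ((w⁻¹ : (𝓞 K)ˣ) : 𝓞 K)) := by
    intro w
    rfl
  have hinv : ∀ w : (𝓞 K)ˣ, fst (ψ (w : 𝓞 K)) * fst (ψ ((w⁻¹ : (𝓞 K)ˣ) : 𝓞 K)) = 1 := by
    intro w
    rw [← TrivSqZeroExt.fst_mul, ← map_mul, ← Units.val_mul, mul_inv_cancel, Units.val_one, map_one,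
      fst_one]
  have hLg : (fun j => L (Additive.ofMul (g j))) = Λ := by
    funext j
    rw [hLapp, hcert ψ hψ j, mul_assoc, hinv, mul_one]
  refine exists_pow_eq_of_indep (p := p) hp2 L hκ g (by rw [hLg]; exact hΛ) u ?_
  obtain ⟨n, w, hw⟩ := hcong
  have hu : (u : 𝓞 K) = n + p * w := by rw [← hw]; ring
  rw [hLapp, hu, map_add, map_mul, map_natCast, map_intCast, natCast_self_eq_zero, zero_mul,
    add_zero, snd_intCast, zero_mul]

end Criterion

end Fermat.Agent.FLTReg.KLC
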