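import Mathlib
import Fermat.Agent.FLTReg.KLC.DualHom

/-!
# Kummer's lemma by computation, part (C0): reduction to explicit certificates

The units used are `ζ` and the cyclotomic units `1 + ζ + ⋯ + ζ ^ (a - 1)`, `2 ≤ a ≤ (p - 1) / 2`.
-/

namespace Fermat.Agent.FLTReg.KLC

open NumberField Polynomial TrivSqZeroExt DualNumber Finset

section GeomUnits

variable {p : ℕ} [Fact p.Prime] {K : Type*} [Field K] {ζ : K} (hζ : IsPrimitiveRoot ζ p)

/-- `ζ` as a unit of `𝓞 K`. -/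
noncomputable def zetaUnit : (𝓞 K)ˣ :=
  (hζ.toInteger_isPrimitiveRoot.isUnit (NeZero.ne p)).unit

theorem coe_zetaUnit : ((zetaUnit hζ : (𝓞 K)ˣ) : 𝓞 K) = hζ.toInteger :=
  IsUnit.unit_spec _

/-- The cyclotomic unit `1 + ζ + ⋯ + ζ ^ (a - 1)` (junk value `1` if `a` is not prime to `p`). -/
noncomputable def geomUnit (a : ℕ) : (𝓞 K)ˣ :=
  if h : a.Coprime p then
    (hζ.toInteger_isPrimitiveRoot.geom_sum_isUnit (Fact.out : p.Prime).two_le h).unit
  else 1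

theorem coe_geomUnit {a : ℕ} (h0 : 0 < a) (ha : a < p) :
    ((geomUnit hζ a : (𝓞 K)ˣ) : 𝓞 K) = ∑ i ∈ range a, hζ.toInteger ^ i := by
  have hp : p.Prime := Fact.out
  have h : a.Coprime p :=
    Nat.Coprime.symm ((Nat.Prime.coprime_iff_not_dvd hp).2 (Nat.not_dvd_of_pos_of_lt h0 ha))
  rw [geomUnit, dif_pos h]
  exact IsUnit.unit_spec _

end GeomUnits

section Formulas

variable {S : Type*} [CommRing S] {R : Type*} [CommRing R]

theorem fst_map_geom_sum (ψ : S →+* DualNumber R) (t : S) (z : R) (hψ : ψ t = inl z + ε)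
    (a : ℕ) : fst (ψ (∑ i ∈ range a, t ^ i)) = ∑ i ∈ range a, z ^ i := by
  rw [map_sum, ← TrivSqZeroExt.fstHom_apply (S := R), map_sum]
  refine Finset.sum_congr rfl fun i _ => ?_
  rw [TrivSqZeroExt.fstHom_apply, map_pow, hψ, TrivSqZeroExt.fst_pow, fst_add, fst_inl, fst_eps,
    add_zero]

theorem snd_map_geom_sum (ψ : S →+* DualNumber R) (t : S) (z : R) (hψ : ψ t = inl z + ε)
    (a : ℕ) : snd (ψ (∑ i ∈ range a, t ^ i)) = ∑ i ∈ range a, (i : R) * z ^ (i - 1) := by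
  rw [map_sum, ← TrivSqZeroExt.sndHom_apply (R := R), map_sum]
  refine Finset.sum_congr rfl fun i _ => ?_
  rw [TrivSqZeroExt.sndHom_apply, map_pow, hψ, TrivSqZeroExt.snd_pow, fst_add, fst_inl, fst_eps,
    add_zero, snd_add, snd_inl, snd_eps, zero_add, smul_eq_mul, mul_one, nsmul_eq_mul,
    Nat.pred_eq_sub_one]

end Formulas

section Main

variable {p : ℕ} [Fact p.Prime] {K : Type*} [Field K] [NumberField K]
  [IsCyclotomicExtension {p} ℚ K]

/-- **Kummer's lemma from explicit certificates** in a `ZMod p`-algebra `R` with `x ^ (p-2) = 0`. -/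
theorem kummer_of_certificates (hp2 : p ≠ 2) (R : Type*) [CommRing R] [Algebra (ZMod p) R]
    (x : R) (hx : x ^ (p - 2) = 0) (m : ℕ) (hm : (p - 1) / 2 ≤ m + 1) (hmp : m + 1 < p)
    (Λ : Fin (m + 1) → R) (hΛ : LinearIndependent (ZMod p) Λ)
    (h0 : 1 = Λ 0 * (1 + x))
    (hc : ∀ j : Fin m, ∑ i ∈ range ((j : ℕ) + 2), (i : R) * (1 + x) ^ (i - 1) =
      Λ j.succ * ∑ i ∈ range ((j : ℕ) + 2), (1 + x) ^ i)
    (u : (𝓞 K)ˣ) (hcong : ∃ n : ℤ, (p : 𝓞 K) ∣ (u : 𝓞 K) - n) : ∃ v : (𝓞 K)ˣ, u = v ^ p := by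
  have hζ := IsCyclotomicExtension.zeta_spec p ℚ K
  refine kummer_of_dual_certificates hζ hp2 R x hx (κ := Fin (m + 1)) (by simpa using hm)
    (Fin.cons (zetaUnit hζ) fun j : Fin m => geomUnit hζ ((j : ℕ) + 2)) Λ hΛ ?_ u hcong
  intro ψ hψ j
  refine Fin.cases ?_ (fun j => ?_) j
  · rw [Fin.cons_zero, coe_zetaUnit, hψ, snd_add, snd_inl, snd_eps, zero_add, fst_add, fst_inl,
      fst_eps, add_zero]
    exact h0
  · rw [Fin.cons_succ, coe_geomUnit hζ (by omega) (by omega),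
      snd_map_geom_sum ψ _ _ hψ, fst_map_geom_sum ψ _ _ hψ]
    exact hc j

end Main

end Fermat.Agent.FLTReg.KLC
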