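import Mathlib

/-!
# Kummer's lemma by computation: the truncated polynomial ring `(ZMod p)[X] / (X ^ n)`
-/

namespace Fermat.Agent.FLTReg.KLC

open Polynomial

section Model

variable (p : ℕ) [Fact p.Prime] (n : ℕ)

/-- The truncated polynomial ring `(ZMod p)[X] / (X ^ n)`. -/
abbrev TruncRing : Type := AdjoinRoot (X ^ n : (ZMod p)[X])

/-- The class of `X` in `TruncRing p n`. -/
noncomputable abbrev truncX : TruncRing p n := AdjoinRoot.root (X ^ n : (ZMod p)[X])

theorem truncX_pow_eq_zero : (truncX p n) ^ n = 0 := by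
  rw [truncX, ← AdjoinRoot.mk_X, ← map_pow, AdjoinRoot.mk_self]

theorem natCast_truncRing_eq_zero : ((p : ℕ) : TruncRing p n) = 0 := by
  rw [← map_natCast (algebraMap (ZMod p) (TruncRing p n)) p, ZMod.natCast_self, map_zero]

/-- `1, x, …, x ^ (n - 1)` are linearly independent in `TruncRing p n`. -/
theorem eq_zero_of_sum_smul_truncX_pow (c : Fin n → ZMod p)
    (h : ∑ k : Fin n, c k • (truncX p n) ^ (k : ℕ) = 0) : c = 0 := by
  have h1 : ∑ k : Fin n, c k • (truncX p n) ^ (k : ℕ) =
      AdjoinRoot.mk (X ^ n : (ZMod p)[X]) (∑ k : Fin n, C (c k) * X ^ (k : ℕ)) := by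
    rw [map_sum]
    refine Finset.sum_congr rfl fun k _ => ?_
    rw [map_mul, map_pow, AdjoinRoot.mk_X, AdjoinRoot.mk_C, Algebra.smul_def,
      AdjoinRoot.algebraMap_eq]
  rw [h1, AdjoinRoot.mk_eq_zero] at h
  have h2 : (∑ k : Fin n, C (c k) * X ^ (k : ℕ) : (ZMod p)[X]) = 0 := by
    refine Polynomial.eq_zero_of_dvd_of_degree_lt h ?_
    rw [degree_X_pow]
    exact degree_sum_fin_lt c
  funext k
  have h3 := congrArg (fun q : (ZMod p)[X] => q.coeff (k : ℕ)) h2
  simp only [finsetSum_coeff, coeff_C_mul, coeff_X_pow, coeff_zero] at h3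
  rw [Finset.sum_eq_single k] at h3
  · simpa using h3
  · intro j _ hjk
    have : (k : ℕ) ≠ (j : ℕ) := fun hh => hjk (Fin.ext hh.symm)
    simp [this]
  · intro hk
    exact absurd (Finset.mem_univ k) hk

/-- Rows of a natural-number matrix whose reduction mod `p` has a right inverse give linearly
independent elements `∑ k, M j k * x ^ k` of `TruncRing p n`. -/
theorem linearIndependent_of_mul_eq_one {m : ℕ} (M : Matrix (Fin m) (Fin n) ℕ)
    (N : Matrix (Fin n) (Fin m) (ZMod p))
    (h : (M.map (Nat.cast : ℕ → ZMod p)) * N = 1) :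
    LinearIndependent (ZMod p)
      (fun j : Fin m => ∑ k : Fin n, ((M j k : ℕ) : TruncRing p n) * (truncX p n) ^ (k : ℕ)) := by
  rw [Fintype.linearIndependent_iff]
  intro c hc
  have h1 : ∑ j : Fin m, c j • ∑ k : Fin n, ((M j k : ℕ) : TruncRing p n) * (truncX p n) ^ (k : ℕ) =
      ∑ k : Fin n, (Matrix.vecMul c (M.map (Nat.cast : ℕ → ZMod p)) k) • (truncX p n) ^ (k : ℕ) := by
    simp only [Finset.smul_sum, Matrix.vecMul, dotProduct, Finset.sum_smul, Matrix.map_apply]
    rw [Finset.sum_comm]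
    refine Finset.sum_congr rfl fun k _ => Finset.sum_congr rfl fun j _ => ?_
    rw [mul_smul]
    congr 1
    rw [Algebra.smul_def, map_natCast]
  rw [h1] at hc
  have h2 := eq_zero_of_sum_smul_truncX_pow p n _ hc
  have h3 : c = Matrix.vecMul (Matrix.vecMul c (M.map (Nat.cast : ℕ → ZMod p))) N := by
    rw [Matrix.vecMul_vecMul, h, Matrix.vecMul_one]
  intro i
  rw [h3]
  have : Matrix.vecMul c (M.map (Nat.cast : ℕ → ZMod p)) = 0 := h2
  rw [this, Matrix.zero_vecMul]
  rfl

end Model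

end Fermat.Agent.FLTReg.KLC
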