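import Mathlib
import Fermat.Agent.FLTReg.KLC.Certs
import Fermat.Agent.FLTReg.KLC.Model

/-!
# Kummer's lemma for `p = 11`: explicit certificates

Generated data: the coefficient matrix of the logarithmic derivatives of the units
`ζ, 1 + ζ, 1 + ζ + ζ², …` in `(ZMod p)[x] / (x ^ (p - 2))` (with `ζ ↦ 1 + x`), a right inverse of
it mod `p`, and the polynomial identities certifying the logarithmic derivatives.
-/

namespace Fermat.Agent.FLTReg.KLC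

open NumberField Finset

/-- Coefficients of the logarithmic derivatives, `p = 11`. -/
def lamMat11 : Matrix (Fin 5) (Fin 9) ℕ :=
  !![1, 10, 1, 10, 1, 10, 1, 10, 1;
    6, 8, 7, 2, 10, 6, 8, 7, 2;
    1, 7, 0, 5, 6, 7, 2, 3, 0;
    7, 8, 1, 8, 7, 6, 4, 0, 0;
    2, 0, 10, 3, 0, 6, 5, 6, 5]

/-- A right inverse of `lamMat11` mod `11`. -/
def lamInv11 : Matrix (Fin 9) (Fin 5) (ZMod 11) :=
  !![9, 6, 7, 0, 2;
    1, 8, 7, 4, 2;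
    0, 0, 0, 0, 0;
    9, 0, 1, 3, 1;
    0, 0, 0, 0, 0;
    0, 8, 5, 0, 1;
    0, 0, 0, 0, 0;
    9, 1, 5, 4, 9;
    0, 0, 0, 0, 0]

theorem lamMat11_mul_lamInv11 :
    (lamMat11.map (Nat.cast : ℕ → ZMod 11)) * lamInv11 = 1 := by
  decide

section Certificates11

variable {R : Type*} [CommRing R] (x : R)

theorem cert11_0 (hx : x ^ 9 = 0) (hp : (11 : R) = 0) :
    1 = (1 + 10 * x + 1 * x ^ 2 + 10 * x ^ 3 + 1 * x ^ 4 + 10 * x ^ 5 + 1 * x ^ 6 + 10 * x ^ 7 + 1 * x ^ 8) * (1 + x) := by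
  linear_combination (-1) * hx + (-1 * x - 1 * x ^ 2 - 1 * x ^ 3 - 1 * x ^ 4 - 1 * x ^ 5 - 1 * x ^ 6 - 1 * x ^ 7 - 1 * x ^ 8) * hp

theorem lamRow11_0 :
    ∑ k : Fin 9, ((lamMat11 0 k : ℕ) : R) * x ^ (k : ℕ) = 1 + 10 * x + 1 * x ^ 2 + 10 * x ^ 3 + 1 * x ^ 4 + 10 * x ^ 5 + 1 * x ^ 6 + 10 * x ^ 7 + 1 * x ^ 8 := by
  simp [Fin.sum_univ_succ, lamMat11] <;> ring

theorem cert11_1 (hx : x ^ 9 = 0) (hp : (11 : R) = 0) :
    ∑ i ∈ range 2, (i : R) * (1 + x) ^ (i - 1) =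
      (6 + 8 * x + 7 * x ^ 2 + 2 * x ^ 3 + 10 * x ^ 4 + 6 * x ^ 5 + 8 * x ^ 6 + 7 * x ^ 7 + 2 * x ^ 8) * ∑ i ∈ range 2, (1 + x) ^ i := by
  simp only [Finset.sum_range_succ, Finset.sum_range_zero]
  norm_num
  linear_combination (-2) * hx + (-1 - 2 * x - 2 * x ^ 2 - 1 * x ^ 3 - 2 * x ^ 4 - 2 * x ^ 5 - 2 * x ^ 6 - 2 * x ^ 7 - 1 * x ^ 8) * hp

theorem lamRow11_1 :
    ∑ k : Fin 9, ((lamMat11 1 k : ℕ) : R) * x ^ (k : ℕ) = 6 + 8 * x + 7 * x ^ 2 + 2 * x ^ 3 + 10 * x ^ 4 + 6 * x ^ 5 + 8 * x ^ 6 + 7 * x ^ 7 + 2 * x ^ 8 := by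
  simp [Fin.sum_univ_succ, lamMat11] <;> ring

theorem cert11_2 (hx : x ^ 9 = 0) (hp : (11 : R) = 0) :
    ∑ i ∈ range 3, (i : R) * (1 + x) ^ (i - 1) =
      (1 + 7 * x + 5 * x ^ 3 + 6 * x ^ 4 + 7 * x ^ 5 + 2 * x ^ 6 + 3 * x ^ 7) * ∑ i ∈ range 3, (1 + x) ^ i := by
  simp only [Finset.sum_range_succ, Finset.sum_range_zero]
  norm_num
  linear_combination (-3) * hx + (-2 * x - 2 * x ^ 2 - 2 * x ^ 3 - 3 * x ^ 4 - 4 * x ^ 5 - 3 * x ^ 6 - 2 * x ^ 7 - 1 * x ^ 8) * hp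

theorem lamRow11_2 :
    ∑ k : Fin 9, ((lamMat11 2 k : ℕ) : R) * x ^ (k : ℕ) = 1 + 7 * x + 5 * x ^ 3 + 6 * x ^ 4 + 7 * x ^ 5 + 2 * x ^ 6 + 3 * x ^ 7 := by
  simp [Fin.sum_univ_succ, lamMat11] <;> ring

theorem cert11_3 (hx : x ^ 9 = 0) (hp : (11 : R) = 0) :
    ∑ i ∈ range 4, (i : R) * (1 + x) ^ (i - 1) =
      (7 + 8 * x + 1 * x ^ 2 + 8 * x ^ 3 + 7 * x ^ 4 + 6 * x ^ 5 + 4 * x ^ 6) * ∑ i ∈ range 4, (1 + x) ^ i := by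
  simp only [Finset.sum_range_succ, Finset.sum_range_zero]
  norm_num
  linear_combination (-4) * hx + (-2 - 6 * x - 7 * x ^ 2 - 7 * x ^ 3 - 8 * x ^ 4 - 9 * x ^ 5 - 8 * x ^ 6 - 5 * x ^ 7 - 2 * x ^ 8) * hp

theorem lamRow11_3 :
    ∑ k : Fin 9, ((lamMat11 3 k : ℕ) : R) * x ^ (k : ℕ) = 7 + 8 * x + 1 * x ^ 2 + 8 * x ^ 3 + 7 * x ^ 4 + 6 * x ^ 5 + 4 * x ^ 6 := by
  simp [Fin.sum_univ_succ, lamMat11] <;> ring

theorem cert11_4 (hx : x ^ 9 = 0) (hp : (11 : R) = 0) :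
    ∑ i ∈ range 5, (i : R) * (1 + x) ^ (i - 1) =
      (2 + 10 * x ^ 2 + 3 * x ^ 3 + 6 * x ^ 5 + 5 * x ^ 6 + 6 * x ^ 7 + 5 * x ^ 8) * ∑ i ∈ range 5, (1 + x) ^ i := by
  simp only [Finset.sum_range_succ, Finset.sum_range_zero]
  norm_num
  linear_combination (-141 - 85 * x - 31 * x ^ 2 - 5 * x ^ 3) * hx + (-5 * x ^ 2 - 11 * x ^ 3 - 12 * x ^ 4 - 10 * x ^ 5 - 10 * x ^ 6 - 13 * x ^ 7 - 15 * x ^ 8) * hp

theorem lamRow11_4 :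
    ∑ k : Fin 9, ((lamMat11 4 k : ℕ) : R) * x ^ (k : ℕ) = 2 + 10 * x ^ 2 + 3 * x ^ 3 + 6 * x ^ 5 + 5 * x ^ 6 + 6 * x ^ 7 + 5 * x ^ 8 := by
  simp [Fin.sum_univ_succ, lamMat11] <;> ring

end Certificates11

/-- **Kummer's lemma for `p = 11`**: a unit of the `11`-th cyclotomic field congruent to a
rational integer mod `11` is a `11`-th power. -/
theorem kummers_lemma_eleven [Fact (Nat.Prime 11)] {K : Type*} [Field K] [NumberField K]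
    [IsCyclotomicExtension {11} ℚ K] (u : (𝓞 K)ˣ)
    (hcong : ∃ n : ℤ, ((11 : ℕ) : 𝓞 K) ∣ (u : 𝓞 K) - n) : ∃ v : (𝓞 K)ˣ, u = v ^ 11 := by
  have hx : (truncX 11 9) ^ 9 = 0 := truncX_pow_eq_zero 11 9
  have hp : (11 : TruncRing 11 9) = 0 := by
    have := natCast_truncRing_eq_zero 11 9
    exact_mod_cast this
  refine kummer_of_certificates (p := 11) (by norm_num) (TruncRing 11 9) (truncX 11 9) hx 4
    (by norm_num) (by norm_num)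
    (fun j => ∑ k : Fin 9, ((lamMat11 j k : ℕ) : TruncRing 11 9) * (truncX 11 9) ^ (k : ℕ))
    (linearIndependent_of_mul_eq_one 11 9 lamMat11 lamInv11 lamMat11_mul_lamInv11) ?_ ?_ u hcong
  · rw [lamRow11_0]
    exact cert11_0 _ hx hp
  · intro j
    fin_cases j
    · show ∑ i ∈ range 2, ((i : ℕ) : TruncRing 11 9) * (1 + truncX 11 9) ^ (i - 1) =
        (∑ k : Fin 9, ((lamMat11 1 k : ℕ) : TruncRing 11 9) * (truncX 11 9) ^ (k : ℕ)) *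
          ∑ i ∈ range 2, (1 + truncX 11 9) ^ i
      rw [lamRow11_1]
      exact cert11_1 _ hx hp
    · show ∑ i ∈ range 3, ((i : ℕ) : TruncRing 11 9) * (1 + truncX 11 9) ^ (i - 1) =
        (∑ k : Fin 9, ((lamMat11 2 k : ℕ) : TruncRing 11 9) * (truncX 11 9) ^ (k : ℕ)) *
          ∑ i ∈ range 3, (1 + truncX 11 9) ^ i
      rw [lamRow11_2]
      exact cert11_2 _ hx hp
    · show ∑ i ∈ range 4, ((i : ℕ) : TruncRing 11 9) * (1 + truncX 11 9) ^ (i - 1) =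
        (∑ k : Fin 9, ((lamMat11 3 k : ℕ) : TruncRing 11 9) * (truncX 11 9) ^ (k : ℕ)) *
          ∑ i ∈ range 4, (1 + truncX 11 9) ^ i
      rw [lamRow11_3]
      exact cert11_3 _ hx hp
    · show ∑ i ∈ range 5, ((i : ℕ) : TruncRing 11 9) * (1 + truncX 11 9) ^ (i - 1) =
        (∑ k : Fin 9, ((lamMat11 4 k : ℕ) : TruncRing 11 9) * (truncX 11 9) ^ (k : ℕ)) *
          ∑ i ∈ range 5, (1 + truncX 11 9) ^ i
      rw [lamRow11_4]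
      exact cert11_4 _ hx hp

end Fermat.Agent.FLTReg.KLC
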