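import Mathlib
import Fermat.Agent.FLTReg.KLC.Certs
import Fermat.Agent.FLTReg.KLC.Model

/-!
# Kummer's lemma for `p = 5`: explicit certificates

Generated data: the coefficient matrix of the logarithmic derivatives of the units
`ζ, 1 + ζ, 1 + ζ + ζ², …` in `(ZMod p)[x] / (x ^ (p - 2))` (with `ζ ↦ 1 + x`), a right inverse of
it mod `p`, and the polynomial identities certifying the logarithmic derivatives.
-/

namespace Fermat.Agent.FLTReg.KLC

open NumberField Finset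

/-- Coefficients of the logarithmic derivatives, `p = 5`. -/
def lamMat5 : Matrix (Fin 2) (Fin 3) ℕ :=
  !![1, 4, 1;
    3, 1, 2]

/-- A right inverse of `lamMat5` mod `5`. -/
def lamInv5 : Matrix (Fin 3) (Fin 2) (ZMod 5) :=
  !![4, 4;
    3, 4;
    0, 0]

theorem lamMat5_mul_lamInv5 :
    (lamMat5.map (Nat.cast : ℕ → ZMod 5)) * lamInv5 = 1 := by
  decide

section Certificates5

variable {R : Type*} [CommRing R] (x : R)

theorem cert5_0 (hx : x ^ 3 = 0) (hp : (5 : R) = 0) :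
    1 = (1 + 4 * x + 1 * x ^ 2) * (1 + x) := by
  linear_combination (-1) * hx + (-1 * x - 1 * x ^ 2) * hp

theorem lamRow5_0 :
    ∑ k : Fin 3, ((lamMat5 0 k : ℕ) : R) * x ^ (k : ℕ) = 1 + 4 * x + 1 * x ^ 2 := by
  simp [Fin.sum_univ_succ, lamMat5] <;> ring

theorem cert5_1 (hx : x ^ 3 = 0) (hp : (5 : R) = 0) :
    ∑ i ∈ range 2, (i : R) * (1 + x) ^ (i - 1) =
      (3 + 1 * x + 2 * x ^ 2) * ∑ i ∈ range 2, (1 + x) ^ i := by
  simp only [Finset.sum_range_succ, Finset.sum_range_zero]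
  norm_num
  linear_combination (-2) * hx + (-1 - 1 * x - 1 * x ^ 2) * hp

theorem lamRow5_1 :
    ∑ k : Fin 3, ((lamMat5 1 k : ℕ) : R) * x ^ (k : ℕ) = 3 + 1 * x + 2 * x ^ 2 := by
  simp [Fin.sum_univ_succ, lamMat5] <;> ring

end Certificates5

/-- **Kummer's lemma for `p = 5`**: a unit of the `5`-th cyclotomic field congruent to a
rational integer mod `5` is a `5`-th power. -/
theorem kummers_lemma_five [Fact (Nat.Prime 5)] {K : Type*} [Field K] [NumberField K]
    [IsCyclotomicExtension {5} ℚ K] (u : (𝓞 K)ˣ)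
    (hcong : ∃ n : ℤ, ((5 : ℕ) : 𝓞 K) ∣ (u : 𝓞 K) - n) : ∃ v : (𝓞 K)ˣ, u = v ^ 5 := by
  have hx : (truncX 5 3) ^ 3 = 0 := truncX_pow_eq_zero 5 3
  have hp : (5 : TruncRing 5 3) = 0 := by
    have := natCast_truncRing_eq_zero 5 3
    exact_mod_cast this
  refine kummer_of_certificates (p := 5) (by norm_num) (TruncRing 5 3) (truncX 5 3) hx 1
    (by norm_num) (by norm_num)
    (fun j => ∑ k : Fin 3, ((lamMat5 j k : ℕ) : TruncRing 5 3) * (truncX 5 3) ^ (k : ℕ))
    (linearIndependent_of_mul_eq_one 5 3 lamMat5 lamInv5 lamMat5_mul_lamInv5) ?_ ?_ u hcong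
  · rw [lamRow5_0]
    exact cert5_0 _ hx hp
  · intro j
    fin_cases j
    · show ∑ i ∈ range 2, ((i : ℕ) : TruncRing 5 3) * (1 + truncX 5 3) ^ (i - 1) =
        (∑ k : Fin 3, ((lamMat5 1 k : ℕ) : TruncRing 5 3) * (truncX 5 3) ^ (k : ℕ)) *
          ∑ i ∈ range 2, (1 + truncX 5 3) ^ i
      rw [lamRow5_1]
      exact cert5_1 _ hx hp

end Fermat.Agent.FLTReg.KLC
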