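import Mathlib
import Fermat.Agent.FLTReg.KLC.Certs
import Fermat.Agent.FLTReg.KLC.Model

/-!
# Kummer's lemma for `p = 7`: explicit certificates

Generated data: the coefficient matrix of the logarithmic derivatives of the units
`ζ, 1 + ζ, 1 + ζ + ζ², …` in `(ZMod p)[x] / (x ^ (p - 2))` (with `ζ ↦ 1 + x`), a right inverse of
it mod `p`, and the polynomial identities certifying the logarithmic derivatives.
-/

namespace Fermat.Agent.FLTReg.KLC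

open NumberField Finset

/-- Coefficients of the logarithmic derivatives, `p = 7`. -/
def lamMat7 : Matrix (Fin 3) (Fin 5) ℕ :=
  !![1, 6, 1, 6, 1;
    4, 5, 1, 3, 2;
    1, 2, 0, 4, 3]

/-- A right inverse of `lamMat7` mod `7`. -/
def lamInv7 : Matrix (Fin 5) (Fin 3) (ZMod 7) :=
  !![0, 3, 3;
    5, 4, 0;
    0, 0, 0;
    1, 6, 3;
    0, 0, 0]

theorem lamMat7_mul_lamInv7 :
    (lamMat7.map (Nat.cast : ℕ → ZMod 7)) * lamInv7 = 1 := by
  decide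

section Certificates7

variable {R : Type*} [CommRing R] (x : R)

theorem cert7_0 (hx : x ^ 5 = 0) (hp : (7 : R) = 0) :
    1 = (1 + 6 * x + 1 * x ^ 2 + 6 * x ^ 3 + 1 * x ^ 4) * (1 + x) := by
  linear_combination (-1) * hx + (-1 * x - 1 * x ^ 2 - 1 * x ^ 3 - 1 * x ^ 4) * hp

theorem lamRow7_0 :
    ∑ k : Fin 5, ((lamMat7 0 k : ℕ) : R) * x ^ (k : ℕ) = 1 + 6 * x + 1 * x ^ 2 + 6 * x ^ 3 + 1 * x ^ 4 := by
  simp [Fin.sum_univ_succ, lamMat7] <;> ring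

theorem cert7_1 (hx : x ^ 5 = 0) (hp : (7 : R) = 0) :
    ∑ i ∈ range 2, (i : R) * (1 + x) ^ (i - 1) =
      (4 + 5 * x + 1 * x ^ 2 + 3 * x ^ 3 + 2 * x ^ 4) * ∑ i ∈ range 2, (1 + x) ^ i := by
  simp only [Finset.sum_range_succ, Finset.sum_range_zero]
  norm_num
  linear_combination (-2) * hx + (-1 - 2 * x - 1 * x ^ 2 - 1 * x ^ 3 - 1 * x ^ 4) * hp

theorem lamRow7_1 :
    ∑ k : Fin 5, ((lamMat7 1 k : ℕ) : R) * x ^ (k : ℕ) = 4 + 5 * x + 1 * x ^ 2 + 3 * x ^ 3 + 2 * x ^ 4 := by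
  simp [Fin.sum_univ_succ, lamMat7] <;> ring

theorem cert7_2 (hx : x ^ 5 = 0) (hp : (7 : R) = 0) :
    ∑ i ∈ range 3, (i : R) * (1 + x) ^ (i - 1) =
      (1 + 2 * x + 4 * x ^ 3 + 3 * x ^ 4) * ∑ i ∈ range 3, (1 + x) ^ i := by
  simp only [Finset.sum_range_succ, Finset.sum_range_zero]
  norm_num
  linear_combination (-13 - 3 * x) * hx + (-1 * x - 1 * x ^ 2 - 2 * x ^ 3 - 3 * x ^ 4) * hp

theorem lamRow7_2 :
    ∑ k : Fin 5, ((lamMat7 2 k : ℕ) : R) * x ^ (k : ℕ) = 1 + 2 * x + 4 * x ^ 3 + 3 * x ^ 4 := by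
  simp [Fin.sum_univ_succ, lamMat7] <;> ring

end Certificates7

/-- **Kummer's lemma for `p = 7`**: a unit of the `7`-th cyclotomic field congruent to a
rational integer mod `7` is a `7`-th power. -/
theorem kummers_lemma_seven [Fact (Nat.Prime 7)] {K : Type*} [Field K] [NumberField K]
    [IsCyclotomicExtension {7} ℚ K] (u : (𝓞 K)ˣ)
    (hcong : ∃ n : ℤ, ((7 : ℕ) : 𝓞 K) ∣ (u : 𝓞 K) - n) : ∃ v : (𝓞 K)ˣ, u = v ^ 7 := by
  have hx : (truncX 7 5) ^ 5 = 0 := truncX_pow_eq_zero 7 5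
  have hp : (7 : TruncRing 7 5) = 0 := by
    have := natCast_truncRing_eq_zero 7 5
    exact_mod_cast this
  refine kummer_of_certificates (p := 7) (by norm_num) (TruncRing 7 5) (truncX 7 5) hx 2
    (by norm_num) (by norm_num)
    (fun j => ∑ k : Fin 5, ((lamMat7 j k : ℕ) : TruncRing 7 5) * (truncX 7 5) ^ (k : ℕ))
    (linearIndependent_of_mul_eq_one 7 5 lamMat7 lamInv7 lamMat7_mul_lamInv7) ?_ ?_ u hcong
  · rw [lamRow7_0]
    exact cert7_0 _ hx hp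
  · intro j
    fin_cases j
    · show ∑ i ∈ range 2, ((i : ℕ) : TruncRing 7 5) * (1 + truncX 7 5) ^ (i - 1) =
        (∑ k : Fin 5, ((lamMat7 1 k : ℕ) : TruncRing 7 5) * (truncX 7 5) ^ (k : ℕ)) *
          ∑ i ∈ range 2, (1 + truncX 7 5) ^ i
      rw [lamRow7_1]
      exact cert7_1 _ hx hp
    · show ∑ i ∈ range 3, ((i : ℕ) : TruncRing 7 5) * (1 + truncX 7 5) ^ (i - 1) =
        (∑ k : Fin 5, ((lamMat7 2 k : ℕ) : TruncRing 7 5) * (truncX 7 5) ^ (k : ℕ)) *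
          ∑ i ∈ range 3, (1 + truncX 7 5) ^ i
      rw [lamRow7_2]
      exact cert7_2 _ hx hp

end Fermat.Agent.FLTReg.KLC
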