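import Mathlib
import Fermat.Agent.FLTReg.KLC.Certs
import Fermat.Agent.FLTReg.KLC.Model

/-!
# Kummer's lemma for `p = 13`: explicit certificates

Generated data: the coefficient matrix of the logarithmic derivatives of the units
`ζ, 1 + ζ, 1 + ζ + ζ², …` in `(ZMod p)[x] / (x ^ (p - 2))` (with `ζ ↦ 1 + x`), a right inverse of
it mod `p`, and the polynomial identities certifying the logarithmic derivatives.
-/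

namespace Fermat.Agent.FLTReg.KLC

open NumberField Finset

/-- Coefficients of the logarithmic derivatives, `p = 13`. -/
def lamMat13 : Matrix (Fin 6) (Fin 11) ℕ :=
  !![1, 12, 1, 12, 1, 12, 1, 12, 1, 12, 1;
    7, 3, 5, 4, 11, 1, 6, 10, 8, 9, 2;
    1, 4, 0, 3, 10, 2, 12, 9, 0, 10, 3;
    8, 3, 11, 11, 1, 1, 11, 5, 4, 9, 4;
    2, 0, 12, 6, 0, 2, 11, 4, 7, 3, 5;
    9, 8, 3, 8, 9, 1, 6, 7, 6, 7, 6]

/-- A right inverse of `lamMat13` mod `13`. -/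
def lamInv13 : Matrix (Fin 11) (Fin 6) (ZMod 13) :=
  !![1, 10, 12, 7, 4, 4;
    3, 2, 12, 11, 2, 1;
    0, 0, 0, 0, 0, 0;
    3, 10, 2, 9, 2, 2;
    0, 0, 0, 0, 0, 0;
    9, 7, 4, 9, 7, 11;
    0, 0, 0, 0, 0, 0;
    7, 11, 0, 6, 1, 1;
    0, 0, 0, 0, 0, 0;
    4, 6, 7, 11, 5, 2;
    0, 0, 0, 0, 0, 0]

theorem lamMat13_mul_lamInv13 :
    (lamMat13.map (Nat.cast : ℕ → ZMod 13)) * lamInv13 = 1 := by
  decide

section Certificates13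

variable {R : Type*} [CommRing R] (x : R)

theorem cert13_0 (hx : x ^ 11 = 0) (hp : (13 : R) = 0) :
    1 = (1 + 12 * x + 1 * x ^ 2 + 12 * x ^ 3 + 1 * x ^ 4 + 12 * x ^ 5 + 1 * x ^ 6 + 12 * x ^ 7 + 1 * x ^ 8 + 12 * x ^ 9 + 1 * x ^ 10) * (1 + x) := by
  linear_combination (-1) * hx + (-1 * x - 1 * x ^ 2 - 1 * x ^ 3 - 1 * x ^ 4 - 1 * x ^ 5 - 1 * x ^ 6 - 1 * x ^ 7 - 1 * x ^ 8 - 1 * x ^ 9 - 1 * x ^ 10) * hp

theorem lamRow13_0 :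
    ∑ k : Fin 11, ((lamMat13 0 k : ℕ) : R) * x ^ (k : ℕ) = 1 + 12 * x + 1 * x ^ 2 + 12 * x ^ 3 + 1 * x ^ 4 + 12 * x ^ 5 + 1 * x ^ 6 + 12 * x ^ 7 + 1 * x ^ 8 + 12 * x ^ 9 + 1 * x ^ 10 := by
  simp [Fin.sum_univ_succ, lamMat13] <;> ring

theorem cert13_1 (hx : x ^ 11 = 0) (hp : (13 : R) = 0) :
    ∑ i ∈ range 2, (i : R) * (1 + x) ^ (i - 1) =
      (7 + 3 * x + 5 * x ^ 2 + 4 * x ^ 3 + 11 * x ^ 4 + 1 * x ^ 5 + 6 * x ^ 6 + 10 * x ^ 7 + 8 * x ^ 8 + 9 * x ^ 9 + 2 * x ^ 10) * ∑ i ∈ range 2, (1 + x) ^ i := by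
  simp only [Finset.sum_range_succ, Finset.sum_range_zero]
  norm_num
  linear_combination (-2) * hx + (-1 - 1 * x - 1 * x ^ 2 - 1 * x ^ 3 - 2 * x ^ 4 - 1 * x ^ 5 - 1 * x ^ 6 - 2 * x ^ 7 - 2 * x ^ 8 - 2 * x ^ 9 - 1 * x ^ 10) * hp

theorem lamRow13_1 :
    ∑ k : Fin 11, ((lamMat13 1 k : ℕ) : R) * x ^ (k : ℕ) = 7 + 3 * x + 5 * x ^ 2 + 4 * x ^ 3 + 11 * x ^ 4 + 1 * x ^ 5 + 6 * x ^ 6 + 10 * x ^ 7 + 8 * x ^ 8 + 9 * x ^ 9 + 2 * x ^ 10 := by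
  simp [Fin.sum_univ_succ, lamMat13] <;> ring

theorem cert13_2 (hx : x ^ 11 = 0) (hp : (13 : R) = 0) :
    ∑ i ∈ range 3, (i : R) * (1 + x) ^ (i - 1) =
      (1 + 4 * x + 3 * x ^ 3 + 10 * x ^ 4 + 2 * x ^ 5 + 12 * x ^ 6 + 9 * x ^ 7 + 10 * x ^ 9 + 3 * x ^ 10) * ∑ i ∈ range 3, (1 + x) ^ i := by
  simp only [Finset.sum_range_succ, Finset.sum_range_zero]
  norm_num
  linear_combination (-19 - 3 * x) * hx + (-1 * x - 1 * x ^ 2 - 1 * x ^ 3 - 3 * x ^ 4 - 3 * x ^ 5 - 4 * x ^ 6 - 5 * x ^ 7 - 3 * x ^ 8 - 3 * x ^ 9 - 3 * x ^ 10) * hp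

theorem lamRow13_2 :
    ∑ k : Fin 11, ((lamMat13 2 k : ℕ) : R) * x ^ (k : ℕ) = 1 + 4 * x + 3 * x ^ 3 + 10 * x ^ 4 + 2 * x ^ 5 + 12 * x ^ 6 + 9 * x ^ 7 + 10 * x ^ 9 + 3 * x ^ 10 := by
  simp [Fin.sum_univ_succ, lamMat13] <;> ring

theorem cert13_3 (hx : x ^ 11 = 0) (hp : (13 : R) = 0) :
    ∑ i ∈ range 4, (i : R) * (1 + x) ^ (i - 1) =
      (8 + 3 * x + 11 * x ^ 2 + 11 * x ^ 3 + 1 * x ^ 4 + 1 * x ^ 5 + 11 * x ^ 6 + 5 * x ^ 7 + 4 * x ^ 8 + 9 * x ^ 9 + 4 * x ^ 10) * ∑ i ∈ range 4, (1 + x) ^ i := by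
  simp only [Finset.sum_range_succ, Finset.sum_range_zero]
  norm_num
  linear_combination (-64 - 25 * x - 4 * x ^ 2) * hx + (-2 - 4 * x - 7 * x ^ 2 - 10 * x ^ 3 - 9 * x ^ 4 - 5 * x ^ 5 - 5 * x ^ 6 - 7 * x ^ 7 - 7 * x ^ 8 - 7 * x ^ 9 - 7 * x ^ 10) * hp

theorem lamRow13_3 :
    ∑ k : Fin 11, ((lamMat13 3 k : ℕ) : R) * x ^ (k : ℕ) = 8 + 3 * x + 11 * x ^ 2 + 11 * x ^ 3 + 1 * x ^ 4 + 1 * x ^ 5 + 11 * x ^ 6 + 5 * x ^ 7 + 4 * x ^ 8 + 9 * x ^ 9 + 4 * x ^ 10 := by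
  simp [Fin.sum_univ_succ, lamMat13] <;> ring

theorem cert13_4 (hx : x ^ 11 = 0) (hp : (13 : R) = 0) :
    ∑ i ∈ range 5, (i : R) * (1 + x) ^ (i - 1) =
      (2 + 12 * x ^ 2 + 6 * x ^ 3 + 2 * x ^ 5 + 11 * x ^ 6 + 4 * x ^ 7 + 7 * x ^ 8 + 3 * x ^ 9 + 5 * x ^ 10) * ∑ i ∈ range 5, (1 + x) ^ i := by
  simp only [Finset.sum_range_succ, Finset.sum_range_zero]
  norm_num
  linear_combination (-119 - 72 * x - 28 * x ^ 2 - 5 * x ^ 3) * hx + (-5 * x ^ 2 - 12 * x ^ 3 - 14 * x ^ 4 - 10 * x ^ 5 - 9 * x ^ 6 - 12 * x ^ 7 - 15 * x ^ 8 - 14 * x ^ 9 - 12 * x ^ 10) * hp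

theorem lamRow13_4 :
    ∑ k : Fin 11, ((lamMat13 4 k : ℕ) : R) * x ^ (k : ℕ) = 2 + 12 * x ^ 2 + 6 * x ^ 3 + 2 * x ^ 5 + 11 * x ^ 6 + 4 * x ^ 7 + 7 * x ^ 8 + 3 * x ^ 9 + 5 * x ^ 10 := by
  simp [Fin.sum_univ_succ, lamMat13] <;> ring

theorem cert13_5 (hx : x ^ 11 = 0) (hp : (13 : R) = 0) :
    ∑ i ∈ range 6, (i : R) * (1 + x) ^ (i - 1) =
      (9 + 8 * x + 3 * x ^ 2 + 8 * x ^ 3 + 9 * x ^ 4 + 1 * x ^ 5 + 6 * x ^ 6 + 7 * x ^ 7 + 6 * x ^ 8 + 7 * x ^ 9 + 6 * x ^ 10) * ∑ i ∈ range 6, (1 + x) ^ i := by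
  simp only [Finset.sum_range_succ, Finset.sum_range_zero]
  norm_num
  linear_combination (-368 - 268 * x - 138 * x ^ 2 - 43 * x ^ 3 - 6 * x ^ 4) * hx + (-3 - 11 * x - 21 * x ^ 2 - 28 * x ^ 3 - 31 * x ^ 4 - 31 * x ^ 5 - 29 * x ^ 6 - 26 * x ^ 7 - 26 * x ^ 8 - 29 * x ^ 9 - 31 * x ^ 10) * hp

theorem lamRow13_5 :
    ∑ k : Fin 11, ((lamMat13 5 k : ℕ) : R) * x ^ (k : ℕ) = 9 + 8 * x + 3 * x ^ 2 + 8 * x ^ 3 + 9 * x ^ 4 + 1 * x ^ 5 + 6 * x ^ 6 + 7 * x ^ 7 + 6 * x ^ 8 + 7 * x ^ 9 + 6 * x ^ 10 := by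
  simp [Fin.sum_univ_succ, lamMat13] <;> ring

end Certificates13

/-- **Kummer's lemma for `p = 13`**: a unit of the `13`-th cyclotomic field congruent to a
rational integer mod `13` is a `13`-th power. -/
theorem kummers_lemma_thirteen [Fact (Nat.Prime 13)] {K : Type*} [Field K] [NumberField K]
    [IsCyclotomicExtension {13} ℚ K] (u : (𝓞 K)ˣ)
    (hcong : ∃ n : ℤ, ((13 : ℕ) : 𝓞 K) ∣ (u : 𝓞 K) - n) : ∃ v : (𝓞 K)ˣ, u = v ^ 13 := by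
  have hx : (truncX 13 11) ^ 11 = 0 := truncX_pow_eq_zero 13 11
  have hp : (13 : TruncRing 13 11) = 0 := by
    have := natCast_truncRing_eq_zero 13 11
    exact_mod_cast this
  refine kummer_of_certificates (p := 13) (by norm_num) (TruncRing 13 11) (truncX 13 11) hx 5
    (by norm_num) (by norm_num)
    (fun j => ∑ k : Fin 11, ((lamMat13 j k : ℕ) : TruncRing 13 11) * (truncX 13 11) ^ (k : ℕ))
    (linearIndependent_of_mul_eq_one 13 11 lamMat13 lamInv13 lamMat13_mul_lamInv13) ?_ ?_ u hcong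
  · rw [lamRow13_0]
    exact cert13_0 _ hx hp
  · intro j
    fin_cases j
    · show ∑ i ∈ range 2, ((i : ℕ) : TruncRing 13 11) * (1 + truncX 13 11) ^ (i - 1) =
        (∑ k : Fin 11, ((lamMat13 1 k : ℕ) : TruncRing 13 11) * (truncX 13 11) ^ (k : ℕ)) *
          ∑ i ∈ range 2, (1 + truncX 13 11) ^ i
      rw [lamRow13_1]
      exact cert13_1 _ hx hp
    · show ∑ i ∈ range 3, ((i : ℕ) : TruncRing 13 11) * (1 + truncX 13 11) ^ (i - 1) =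
        (∑ k : Fin 11, ((lamMat13 2 k : ℕ) : TruncRing 13 11) * (truncX 13 11) ^ (k : ℕ)) *
          ∑ i ∈ range 3, (1 + truncX 13 11) ^ i
      rw [lamRow13_2]
      exact cert13_2 _ hx hp
    · show ∑ i ∈ range 4, ((i : ℕ) : TruncRing 13 11) * (1 + truncX 13 11) ^ (i - 1) =
        (∑ k : Fin 11, ((lamMat13 3 k : ℕ) : TruncRing 13 11) * (truncX 13 11) ^ (k : ℕ)) *
          ∑ i ∈ range 4, (1 + truncX 13 11) ^ i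
      rw [lamRow13_3]
      exact cert13_3 _ hx hp
    · show ∑ i ∈ range 5, ((i : ℕ) : TruncRing 13 11) * (1 + truncX 13 11) ^ (i - 1) =
        (∑ k : Fin 11, ((lamMat13 4 k : ℕ) : TruncRing 13 11) * (truncX 13 11) ^ (k : ℕ)) *
          ∑ i ∈ range 5, (1 + truncX 13 11) ^ i
      rw [lamRow13_4]
      exact cert13_4 _ hx hp
    · show ∑ i ∈ range 6, ((i : ℕ) : TruncRing 13 11) * (1 + truncX 13 11) ^ (i - 1) =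
        (∑ k : Fin 11, ((lamMat13 5 k : ℕ) : TruncRing 13 11) * (truncX 13 11) ^ (k : ℕ)) *
          ∑ i ∈ range 6, (1 + truncX 13 11) ^ i
      rw [lamRow13_5]
      exact cert13_5 _ hx hp

end Fermat.Agent.FLTReg.KLC
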